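/-
S25 package TWIST, leaf G6 (helper7525): `eff_chain`, EXACT name + statement of `TWIST/G6.lean`
(captain helper9130), in namespace `Fermat.Agent.S25.TWIST.G6.H7525`.

Proof.  Work in `Pic (𝒞.chart κ)`; `e = [O(-ε)]`, `g = genus 𝒞`.
* `χ` is a class function, `χ(c · [O(-x)]) = χ(c) - 1` (G5, G5').
* `N := L ⊗ O(-ε)^{-g}` has `χ(N) = χ(O) + g = 1` (`χ(O) = 1 - g`: `Lib/Euler` + base change of
  `H¹(O)`, `H7525/Genus.lean`), hence a nonzero section `s`.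
* `s` embeds `N^∨` as an ideal datum `(a₁, a₂)` (`H7525/Embed.lean`), which is a product of
  point ideal sheaves `p₁ ⋯ p_n` (`H7525/Factor.lean`); `χ` gives `n = g`.
* `[L] = e^g · (p₁ ⋯ p_g)⁻¹`; the chain is `M_j = e^j · (p₁ ⋯ p_j)⁻¹`.
-/
import Fermat.Agent.S25.Lib.Euler.Inst
import Fermat.Agent.S25.TWIST.G5
import Fermat.Agent.S25.TWIST.G6.H7525.Genus
import Fermat.Agent.S25.TWIST.G6.H7525.Factor

set_option autoImplicit false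
set_option linter.style.haveILetI false
set_option linter.unusedSectionVars false

universe u

namespace Fermat.Agent.S25.TWIST.G6.H7525

open Fermat.Agent.S25

open scoped TensorProduct

open GluedModule Ten

variable {k : Type u} [Field k] (𝒞 : CurveData k)

variable [IsAlgClosed k] (κ : Type u) [Field κ] [IsAlgClosed κ] [Algebra k κ]

/-- The Euler characteristic of a class of line bundles. -/
noncomputable def chiP (p : Pic (𝒞.chart κ)) : ℤ := chi (Pic.mk_surjective p).choose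

theorem chiP_mk (N : GluedModule (𝒞.chart κ)) (hN : N.IsLineBundle) :
    chiP 𝒞 κ (Pic.mk N hN) = chi N := by
  unfold chiP
  obtain ⟨h', heq⟩ := (Pic.mk_surjective (Pic.mk N hN)).choose_spec
  obtain ⟨e⟩ := (Pic.mk_eq_mk_iff h' hN).mp heq
  exact Lib.Euler.chi_congr e

theorem chiP_mul_pt (c : Pic (𝒞.chart κ)) {p : Pic (𝒞.chart κ)} (hp : IsPt 𝒞 κ p) :
    chiP 𝒞 κ (c * p) = chiP 𝒞 κ c - 1 := by
  obtain ⟨N, hN, rfl⟩ := Pic.mk_surjective c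
  rcases hp with ⟨x, rfl⟩ | ⟨x, rfl⟩
  · rw [Pic.mk_mul_mk, chiP_mk, chiP_mk]
    exact chi_tensor_Γ₁ 𝒞 κ N hN x
  · rw [Pic.mk_mul_mk, chiP_mk, chiP_mk]
    exact chi_tensor_Γ₂ 𝒞 κ N hN x

theorem chiP_mul_prod (l : List (Pic (𝒞.chart κ))) (hl : ∀ p ∈ l, IsPt 𝒞 κ p)
    (c : Pic (𝒞.chart κ)) : chiP 𝒞 κ (c * l.prod) = chiP 𝒞 κ c - l.length := by
  induction l generalizing c with
  | nil => simp
  | cons p l ih =>
    rw [List.prod_cons, ← mul_assoc, ih (fun q hq => hl q (List.mem_cons_of_mem _ hq)),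
      chiP_mul_pt 𝒞 κ c (hl p List.mem_cons_self), List.length_cons]
    push_cast
    ring

theorem chiP_mul_pow (c : Pic (𝒞.chart κ)) {e : Pic (𝒞.chart κ)} (he : IsPt 𝒞 κ e) (n : ℕ) :
    chiP 𝒞 κ (c * e ^ n) = chiP 𝒞 κ c - n := by
  have h := chiP_mul_prod 𝒞 κ (List.replicate n e) (fun p hp => by
    rw [List.eq_of_mem_replicate hp]; exact he) c
  rw [List.prod_replicate, List.length_replicate] at h
  exact h

/-- `χ(O) = 1 - g` over `κ`. -/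
theorem chi_unit_eq :
    chi (GluedModule.unit (𝒞.chart κ)) = 1 - (genus 𝒞 : ℤ) := by
  rw [Lib.Euler.IsCurveChart.chi_unit (Lib.Euler.isCurveChart_chart 𝒞 κ),
    Lib.Euler.IsCurveChart.genus_eq, finrank_H1_unit_eq_genus]

/-- (G6) A line bundle `L` with `χ(L) = χ(O)` is `O(x₁ + … + x_g - g ε)`: a chain
`O ≅ M₀, M₁, …, M_g ≅ L` with `M_{j+1}(-x_{j+1}) ≅ M_j(-ε)`. -/
theorem eff_chain (L : GluedModule (𝒞.chart κ)) (hL : L.IsLineBundle)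
    (hχ : chi L = chi (GluedModule.unit (𝒞.chart κ))) :
    ∃ M : Fin (genus 𝒞 + 1) → GluedModule (𝒞.chart κ),
      (∀ j, (M j).IsLineBundle) ∧
      Nonempty ((M 0).Iso (GluedModule.unit (𝒞.chart κ))) ∧
      Nonempty ((M (Fin.last (genus 𝒞))).Iso L) ∧
      ∀ j : Fin (genus 𝒞),
        (∃ x : 𝒞.A₁ →ₐ[k] κ, Nonempty (Iso (tensor (M j.succ) (Γ₁ 𝒞 x))
          (tensor (M j.castSucc) (Γ₁ 𝒞 (epsPt 𝒞 κ))))) ∨
        (∃ x : 𝒞.A₂ →ₐ[k] κ, Nonempty (Iso (tensor (M j.succ) (Γ₂ 𝒞 x))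
          (tensor (M j.castSucc) (Γ₁ 𝒞 (epsPt 𝒞 κ))))) := by
  haveI := isDomain_B₁ 𝒞 κ
  haveI := isDomain_B₂ 𝒞 κ
  haveI : Nontrivial (𝒞.chart κ).B₁₂ := (Lib.Curve.chart_isDomain₁₂ 𝒞 κ).toNontrivial
  obtain ⟨g, hg⟩ : ∃ g : ℕ, g = genus 𝒞 := ⟨_, rfl⟩
  rw [← hg]
  have hEps : (Γ₁ 𝒞 (epsPt 𝒞 κ)).IsLineBundle := Γ₁_isLineBundle 𝒞 (epsPt 𝒞 κ)
  obtain ⟨e, he⟩ : ∃ e : Pic (𝒞.chart κ), e = Pic.mk (Γ₁ 𝒞 (epsPt 𝒞 κ)) hEps := ⟨_, rfl⟩
  have hePt : IsPt 𝒞 κ e := Or.inl ⟨_, he⟩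
  -- `N = L ⊗ O(-ε)^{-g}`
  obtain ⟨N, hN, hNeq⟩ := Pic.mk_surjective (Pic.mk L hL * (e ^ g)⁻¹)
  have hNL : Pic.mk N hN * e ^ g = Pic.mk L hL := by rw [hNeq, inv_mul_cancel_right]
  have hchiO : chi (GluedModule.unit (𝒞.chart κ)) = 1 - (g : ℤ) := by
    rw [hg]; exact chi_unit_eq 𝒞 κ
  have hchiN : chi N = 1 := by
    have h1 := chiP_mul_pow 𝒞 κ (Pic.mk N hN) hePt g
    rw [hNL, chiP_mk, chiP_mk, hχ, hchiO] at h1
    linarith
  -- a nonzero section of `N`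
  have hpos : 0 < Module.finrank κ N.H0 := by
    unfold GluedModule.chi at hchiN
    omega
  haveI : Nontrivial N.H0 := Module.nontrivial_of_finrank_pos (R := κ) hpos
  obtain ⟨s, hs⟩ := exists_ne (0 : N.H0)
  have hs12 : N.ι₁ s.1.1 = N.ι₂ s.1.2 := by
    have h1 : N.d s.1 = 0 := LinearMap.mem_ker.mp s.2
    exact sub_eq_zero.mp h1
  have hs0 : s.1 ≠ 0 := fun h0 => hs (Subtype.ext h0)
  obtain ⟨hs₁, hs₂⟩ := section_ne_zero hN s.1 hs12 hs0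
  -- `N^∨` is an ideal datum, a product of points
  obtain ⟨a₁, a₂, h, ha₁, ha₂, ⟨iso⟩⟩ := exists_lbDual_iso_ofIdeals N hN s.1 hs12 hs₁ hs₂
  obtain ⟨l, hl, hprod⟩ := exists_factorization 𝒞 κ (a₁, a₂) h ha₁ ha₂
  have hNinv : (Pic.mk N hN)⁻¹ = l.prod := by
    rw [← hprod, Pic.mk_inv, Pic.mk_eq_mk_iff]
    exact ⟨iso⟩
  have hone : Pic.mk N hN * l.prod = 1 := by rw [← hNinv, mul_inv_cancel]
  have hlen : l.length = g := by
    have h1 := chiP_mul_prod 𝒞 κ l hl (Pic.mk N hN)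
    rw [hone, Pic.one_def, chiP_mk, chiP_mk, hchiN, hchiO] at h1
    omega
  have hLeq : Pic.mk L hL = e ^ g * (l.prod)⁻¹ := by
    rw [← hNL, ← hNinv, inv_inv, mul_comm]
  -- the chain
  obtain ⟨q, hq⟩ : ∃ q : ℕ → Pic (𝒞.chart κ), ∀ j, q j = e ^ j * ((l.take j).prod)⁻¹ :=
    ⟨_, fun _ => rfl⟩
  choose Mq hMq hMqeq using fun j => Pic.mk_surjective (q j)
  refine ⟨fun j => Mq j, fun j => hMq j, ?_, ?_, ?_⟩
  · have h1 : Pic.mk (Mq 0) (hMq 0) = 1 := by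
      rw [hMqeq, hq]; simp
    rw [Pic.one_def] at h1
    exact (Pic.mk_eq_mk_iff _ _).mp h1
  · have h1 : Pic.mk (Mq g) (hMq g) = Pic.mk L hL := by
      rw [hMqeq, hq, hLeq, ← hlen, List.take_length]
    exact (Pic.mk_eq_mk_iff _ _).mp h1
  · intro j
    have hj : (j : ℕ) < l.length := by rw [hlen]; exact j.2
    have hstep : q (j + 1) * l[(j : ℕ)] = q j * e := by
      rw [hq, hq, List.prod_take_succ _ _ hj, mul_inv, pow_succ]
      have hc : (l[(j : ℕ)])⁻¹ * l[(j : ℕ)] = 1 := inv_mul_cancel _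
      calc e ^ (j : ℕ) * e * (((l.take j).prod)⁻¹ * (l[(j : ℕ)])⁻¹) * l[(j : ℕ)]
          = e ^ (j : ℕ) * ((l.take j).prod)⁻¹ * e * ((l[(j : ℕ)])⁻¹ * l[(j : ℕ)]) := by
            simp only [mul_assoc, mul_comm, mul_left_comm]
        _ = e ^ (j : ℕ) * ((l.take j).prod)⁻¹ * e := by rw [hc, mul_one]
    have hsucc : ((j.succ : Fin (g + 1)) : ℕ) = j + 1 := Fin.val_succ j
    have hcast : ((j.castSucc : Fin (g + 1)) : ℕ) = j := rfl
    rcases hl _ (List.getElem_mem hj) with ⟨x, hx⟩ | ⟨x, hx⟩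
    · left
      refine ⟨x, ?_⟩
      have h1 : Pic.mk (Mq (j + 1)) (hMq _) * Pic.mk (Γ₁ 𝒞 x) (Γ₁_isLineBundle 𝒞 x) =
          Pic.mk (Mq j) (hMq _) * Pic.mk (Γ₁ 𝒞 (epsPt 𝒞 κ)) hEps := by
        rw [hMqeq, hMqeq, ← hx, ← he]
        exact hstep
      rw [Pic.mk_mul_mk, Pic.mk_mul_mk] at h1
      have h2 := (Pic.mk_eq_mk_iff _ _).mp h1
      simp only [hsucc, hcast]
      exact h2
    · right
      refine ⟨x, ?_⟩
      have h1 : Pic.mk (Mq (j + 1)) (hMq _) * Pic.mk (Γ₂ 𝒞 x) (Γ₂_isLineBundle 𝒞 x) =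
          Pic.mk (Mq j) (hMq _) * Pic.mk (Γ₁ 𝒞 (epsPt 𝒞 κ)) hEps := by
        rw [hMqeq, hMqeq, ← hx, ← he]
        exact hstep
      rw [Pic.mk_mul_mk, Pic.mk_mul_mk] at h1
      have h2 := (Pic.mk_eq_mk_iff _ _).mp h1
      simp only [hsucc, hcast]
      exact h2

end Fermat.Agent.S25.TWIST.G6.H7525
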